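import Fermat.Agent.L2Kernel.HilbertSchmidt
import Mathlib.Analysis.InnerProductSpace.Spectrum
import Mathlib.Analysis.Complex.Polynomial.Basic
import Mathlib.LinearAlgebra.Eigenspace.Triangularizable

/-!
# Joint eigenbases of commuting operators

`T` is a commuting family of bounded operators closed under adjoints and `C` an adjoint-closed
subfamily of compact ones. There is a Hilbert basis in which every vector is either killed by all
of `C` or is a joint eigenvector of the whole family; nonzero systems have finite multiplicity.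
-/

set_option autoImplicit false

noncomputable section

namespace Fermat.Agent.LT.Operators

open Module Fermat.Agent.L2Kernel
open scoped InnerProductSpace ComplexConjugate

variable {E : Type*} [NormedAddCommGroup E] [InnerProductSpace ℂ E] {κ : Type*}

/-- A commuting family of endomorphisms of a finite-dimensional space has a joint eigenvector. -/
theorem exists_joint_eigenvector {V : Type*} [AddCommGroup V] [Module ℂ V] (T : κ → End ℂ V)
    (hT : ∀ i j, T i * T j = T j * T i) (W : Submodule ℂ V) [FiniteDimensional ℂ W]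
    (hW : ∀ i, ∀ x ∈ W, T i x ∈ W) (hW0 : W ≠ ⊥) :
    ∃ v ∈ W, v ≠ 0 ∧ ∀ i, ∃ c : ℂ, T i v = c • v := by
  induction hn : finrank ℂ W using Nat.strong_induction_on generalizing W with
  | _ n ih =>
  by_cases hs : ∀ i, ∃ c : ℂ, ∀ x ∈ W, T i x = c • x
  · obtain ⟨v, hv, hv0⟩ := W.ne_bot_iff.mp hW0
    exact ⟨v, hv, hv0, fun i => let ⟨c, hc⟩ := hs i; ⟨c, hc v hv⟩⟩
  push Not at hs
  obtain ⟨i, hi⟩ := hs
  have : Nontrivial W := Submodule.nontrivial_iff_ne_bot.mpr hW0
  obtain ⟨c, hc⟩ := End.exists_eigenvalue ((T i).restrict (hW i))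
  obtain ⟨u, hu⟩ := hc.exists_hasEigenvector
  set W' : Submodule ℂ V := W ⊓ End.eigenspace (T i) c
  have : FiniteDimensional ℂ W' := Submodule.finiteDimensional_of_le inf_le_left
  have hlt : W' < W := by
    refine lt_of_le_of_ne inf_le_left fun h => ?_
    obtain ⟨x, hx, hx'⟩ := hi c
    exact hx' (End.mem_eigenspace_iff.mp (inf_eq_left.mp h hx))
  have hW' : ∀ j, ∀ x ∈ W', T j x ∈ W' := by
    rintro j x ⟨h1, h2⟩
    refine ⟨hW j x h1, End.mem_eigenspace_iff.mpr ?_⟩
    have h := LinearMap.congr_fun (hT i j) x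
    simp only [End.mul_apply] at h
    rw [h, End.mem_eigenspace_iff.mp h2, map_smul]
  have hW'0 : W' ≠ ⊥ := W'.ne_bot_iff.mpr ⟨u, ⟨u.2, End.mem_eigenspace_iff.mpr
    (congrArg Subtype.val hu.apply_eq_smul)⟩, fun h => hu.2 (Subtype.ext h)⟩
  obtain ⟨v, hv, hv'⟩ := ih _ (hn ▸ Submodule.finrank_lt_finrank_of_lt hlt) W' hW' hW'0 rfl
  exact ⟨v, hv.1, hv'⟩

variable [CompleteSpace E] {T : κ → E →L[ℂ] E} {C : Set κ}

/-- A commuting family closed under adjoints, with an adjoint-closed compact part `C`. -/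
structure CompactFamily (T : κ → E →L[ℂ] E) (C : Set κ) : Prop where
  comm : ∀ i j, T i ∘L T j = T j ∘L T i
  adj : ∀ i, ∃ j, T j = ContinuousLinearMap.adjoint (T i)
  adjC : ∀ i ∈ C, ∃ j ∈ C, T j = ContinuousLinearMap.adjoint (T i)
  compact : ∀ i ∈ C, IsCompactOperator (T i)

namespace CompactFamily

variable (hT : CompactFamily T C)
include hT

/-- An adjoint acts on a joint eigenvector by the conjugate eigenvalue. -/
theorem adjoint_apply {v : E} (hv : ∀ i, ∃ c : ℂ, T i v = c • v) (i : κ) {c : ℂ}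
    (hc : T i v = c • v) : ContinuousLinearMap.adjoint (T i) v = conj c • v := by
  obtain ⟨j, hj⟩ := hT.adj i
  obtain ⟨d, hd⟩ := hv j
  rw [hj] at hd
  rw [hd]
  by_cases hv0 : v = 0
  · simp [hv0]
  congr 1
  have h := ContinuousLinearMap.adjoint_inner_left (T i) v v
  rw [hd, hc, inner_smul_left, inner_smul_right] at h
  rw [← Complex.conj_conj d, mul_right_cancel₀ (inner_self_ne_zero.mpr hv0) h]

/-- Joint eigenvectors with different systems are orthogonal. -/
theorem inner_eq_zero {u v : E} (hu : ∀ i, ∃ c : ℂ, T i u = c • u) {i : κ} {c d : ℂ}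
    (hc : T i u = c • u) (hd : T i v = d • v) (hne : c ≠ d) : ⟪u, v⟫_ℂ = 0 := by
  have h := ContinuousLinearMap.adjoint_inner_left (T i) v u
  rw [hT.adjoint_apply hu i hc, hd, inner_smul_left, inner_smul_right, Complex.conj_conj] at h
  exact (mul_eq_mul_right_iff.mp h).resolve_left hne

/-- An invariant complete subspace not killed by `C` contains a joint eigenvector not killed
by `C`. -/
theorem exists_eigenvector (V : Submodule ℂ E) [CompleteSpace V]
    (hV : ∀ i, ∀ x ∈ V, T i x ∈ V) (h : ∃ x ∈ V, ∃ j ∈ C, T j x ≠ 0) :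
    ∃ v ∈ V, ‖v‖ = 1 ∧ (∀ i, ∃ c : ℂ, T i v = c • v) ∧ ∃ j ∈ C, T j v ≠ 0 := by
  obtain ⟨x, hxV, j, hj, hx⟩ := h
  obtain ⟨k, hk, hkj⟩ := hT.adjC j hj
  obtain ⟨a, b, hsym, hne⟩ : ∃ a b : ℂ,
      ((a • T j + b • T k : E →L[ℂ] E) : E →ₗ[ℂ] E).IsSymmetric ∧ a • T j x + b • T k x ≠ 0 := by
    have key : ∀ a : ℂ, ((a • T j + conj a • T k : E →L[ℂ] E) : E →ₗ[ℂ] E).IsSymmetric := by
      intro a
      rw [← ContinuousLinearMap.isSelfAdjoint_iff_isSymmetric,
        ContinuousLinearMap.isSelfAdjoint_iff']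
      simp [hkj, map_smulₛₗ, add_comm]
    by_cases h1 : (1 : ℂ) • T j x + conj (1 : ℂ) • T k x = 0
    · refine ⟨Complex.I, conj Complex.I, key _, fun h2 => hx ?_⟩
      simp only [map_one, one_smul, Complex.conj_I, neg_smul] at h1 h2
      rw [eq_neg_of_add_eq_zero_right h1, smul_neg, neg_neg, ← two_smul ℂ, smul_smul,
        smul_eq_zero] at h2
      exact h2.resolve_left (by simp)
    · exact ⟨1, conj 1, key _, h1⟩
  set A : E →L[ℂ] E := a • T j + b • T k
  have hAc : IsCompactOperator A :=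
    ((hT.compact j hj).smul a).add ((hT.compact k hk).smul b)
  have hAcomm : ∀ i y, A (T i y) = T i (A y) := by
    intro i y
    have h1 := congrArg (fun f : E →L[ℂ] E => f y) (hT.comm j i)
    have h2 := congrArg (fun f : E →L[ℂ] E => f y) (hT.comm k i)
    simp only [ContinuousLinearMap.comp_apply] at h1 h2
    simp [A, h1, h2]
  have hAV : ∀ y ∈ V, A y ∈ V := fun y hy =>
    V.add_mem (V.smul_mem _ (hV j y hy)) (V.smul_mem _ (hV k y hy))
  let S : V →L[ℂ] V := A.restrict hAV
  have hSc : IsCompactOperator S := IsCompactOperator.restrict' (f := (A : E →ₗ[ℂ] E)) hAc hAV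
  have hSs : S.IsSymmetric := hsym.restrict_invariant hAV
  have hS0 : S ≠ 0 := fun h0 => hne (congrArg Subtype.val
    (congrArg (fun f : V →L[ℂ] V => f ⟨x, hxV⟩) h0))
  obtain ⟨m, hm, hm0⟩ : ∃ m, End.HasEigenvalue (S : End ℂ V) m ∧ m ≠ 0 := by
    by_contra hcon
    push Not at hcon
    exact hS0 ((ContinuousLinearMap.eq_zero_of_forall_hasEigenvalue_eq_zero hSc hSs).mp hcon)
  have : FiniteDimensional ℂ (End.eigenspace (A : End ℂ E) m) :=
    ContinuousLinearMap.finite_dimensional_eigenspace hAc m hm0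
  set W : Submodule ℂ E := V ⊓ End.eigenspace (A : End ℂ E) m
  have : FiniteDimensional ℂ W := Submodule.finiteDimensional_of_le inf_le_right
  obtain ⟨u, hu⟩ := hm.exists_hasEigenvector
  have hW0 : W ≠ ⊥ := W.ne_bot_iff.mpr ⟨u, ⟨u.2, End.mem_eigenspace_iff.mpr
    (congrArg Subtype.val hu.apply_eq_smul)⟩, fun h => hu.2 (Subtype.ext h)⟩
  have hW : ∀ i, ∀ y ∈ W, (T i : End ℂ E) y ∈ W := by
    rintro i y ⟨hy1, hy2⟩
    refine ⟨hV i y hy1, End.mem_eigenspace_iff.mpr ?_⟩
    have := End.mem_eigenspace_iff.mp hy2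
    simp only [ContinuousLinearMap.coe_coe] at this ⊢
    rw [hAcomm, this, map_smul]
  obtain ⟨v, hv, hv0, hve⟩ := exists_joint_eigenvector (fun i => (T i : End ℂ E))
    (fun i l => LinearMap.ext fun y => congrArg (fun f : E →L[ℂ] E => f y) (hT.comm i l)) W hW hW0
  have hAv : A v = m • v := End.mem_eigenspace_iff.mp hv.2
  refine ⟨((‖v‖ : ℂ))⁻¹ • v, V.smul_mem _ hv.1, norm_smul_inv_norm hv0,
    fun i => ?_, ?_⟩
  · obtain ⟨c, hc⟩ := hve i
    exact ⟨c, by rw [map_smul, show T i v = c • v from hc, smul_comm]⟩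
  · by_cases h1 : T j v = 0
    · refine ⟨k, hk, fun h2 => ?_⟩
      rw [map_smul, smul_eq_zero] at h2
      have h3 : T k v = 0 := h2.resolve_left (by simpa using hv0)
      have h4 : A v = 0 := by simp [A, h1, h3]
      rw [h4] at hAv
      exact smul_ne_zero hm0 hv0 hAv.symm
    · exact ⟨j, hj, by simpa [hv0] using h1⟩

/-- The Hilbert basis of joint eigenvectors. -/
theorem exists_eigenbasis :
    ∃ (w : Set E) (b : HilbertBasis w ℂ E), (b : w → E) = Subtype.val ∧
      ∀ v : w, (∀ i ∈ C, T i v = 0) ∨ ∀ i, ∃ c : ℂ, T i v = c • (v : E) := by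
  set P : Set (Set E) := {s | Orthonormal ℂ (Subtype.val : s → E) ∧
    ∀ v ∈ s, (∀ i, ∃ c : ℂ, T i v = c • v) ∧ ∃ j ∈ C, T j v ≠ 0}
  obtain ⟨s, hs⟩ : ∃ s, Maximal (· ∈ P) s := by
    refine zorn_subset P fun c hc hchain => ⟨⋃₀ c, ⟨?_, ?_⟩,
        fun t ht => Set.subset_sUnion_of_mem ht⟩
    · exact orthonormal_sUnion_of_directed hchain.directedOn fun a ha => (hc ha).1
    · rintro v ⟨t, ht, hv⟩
      exact (hc ht).2 v hv
  obtain ⟨⟨hso, hse⟩, hmax⟩ := hs
  have hkill : ∀ x, (∀ v ∈ s, ⟪v, x⟫_ℂ = 0) → ∀ i ∈ C, T i x = 0 := by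
    set V : Submodule ℂ E := (Submodule.span ℂ s)ᗮ
    have hVmem : ∀ y, y ∈ V ↔ ∀ v ∈ s, ⟪v, y⟫_ℂ = 0 := by
      refine fun y => ⟨fun hy v hv => hy v (Submodule.subset_span hv), fun hy u hu => ?_⟩
      induction hu using Submodule.span_induction with
      | mem u hu => exact hy u hu
      | zero => simp
      | add u v _ _ h1 h2 => simp [inner_add_left, h1, h2]
      | smul c u _ h => simp [inner_smul_left, h]
    have hV : ∀ i, ∀ y ∈ V, T i y ∈ V := by
      intro i y hy
      refine (hVmem _).mpr fun v hv => ?_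
      obtain ⟨c, hc⟩ := (hse v hv).1 i
      rw [← ContinuousLinearMap.adjoint_inner_left, hT.adjoint_apply (hse v hv).1 i hc,
        inner_smul_left, (hVmem y).mp hy v hv, mul_zero]
    intro x hx i hi
    by_contra hne
    obtain ⟨v, hvV, hv1, hve⟩ :=
      hT.exists_eigenvector V hV ⟨x, (hVmem x).mpr hx, i, hi, hne⟩
    have hvs : v ∉ s := fun h => by
      have := (hVmem v).mp hvV v h
      rw [inner_self_eq_zero] at this
      simp [this] at hv1
    refine hvs (hmax (y := insert v s) ⟨?_, ?_⟩ (Set.subset_insert v s) (Set.mem_insert v s))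
    · classical
      rw [orthonormal_subtype_iff_ite] at hso ⊢
      rintro p (rfl | hp) q (rfl | hq)
      · simp [inner_self_eq_norm_sq_to_K, hv1]
      · rw [if_neg (fun h : p = q => hvs (h ▸ hq)), inner_eq_zero_symm]
        exact (hVmem p).mp hvV q hq
      · rw [if_neg (fun h : p = q => hvs (h ▸ hp))]
        exact (hVmem q).mp hvV p hp
      · exact hso p hp q hq
    · rintro p (rfl | hp)
      · exact hve
      · exact hse p hp
  obtain ⟨w, b, hsw, hb⟩ := hso.exists_hilbertBasis_extension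
  refine ⟨w, b, hb, fun v => ?_⟩
  by_cases hv : (v : E) ∈ s
  · exact Or.inr (hse v hv).1
  · refine Or.inl (hkill v fun u hu => ?_)
    have h := b.orthonormal.2 (i := ⟨u, hsw hu⟩) (j := v) fun h => hv (h ▸ hu)
    rwa [hb] at h

/-- Eigenvalue functions of the compact part along the basis. -/
theorem exists_eigenvalues :
    ∃ (w : Set E) (b : HilbertBasis w ℂ E) (χ : w → κ → ℂ),
      (∀ v, ∀ i ∈ C, T i (b v) = χ v i • b v) ∧
        ∀ v, (∃ i ∈ C, χ v i ≠ 0) → ∀ i, T i (b v) = χ v i • b v := by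
  obtain ⟨w, b, hb, h⟩ := hT.exists_eigenbasis
  classical
  refine ⟨w, b, fun v i => if hc : ∃ c : ℂ, T i v = c • (v : E) then hc.choose else 0, ?_, ?_⟩
  · intro v i hi
    have hc : ∃ c : ℂ, T i v = c • (v : E) :=
      (h v).elim (fun hz => ⟨0, by rw [hz i hi, zero_smul]⟩) fun he => he i
    simp only [hb, dif_pos hc]
    exact hc.choose_spec
  · rintro v ⟨j, hj, hne⟩ i
    rcases h v with hz | he
    · exfalso
      have hc : ∃ c : ℂ, T j v = c • (v : E) := ⟨0, by rw [hz j hj, zero_smul]⟩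
      simp only [dif_pos hc] at hne
      have hs := hc.choose_spec
      replace hs := smul_eq_zero.mp (((hz j hj).symm.trans hs).symm)
      have hv0 : (v : E) ≠ 0 := by
        have := b.orthonormal.ne_zero v
        rwa [hb] at this
      exact hne (hs.resolve_right hv0)
    · simp only [hb, dif_pos (he i)]
      exact (he i).choose_spec

end CompactFamily

/-- The trace of `U A B` in an eigenbasis of `A` and `B`. -/
theorem hsTrace_eigenbasis {ι ι' : Type*} (b : HilbertBasis ι ℂ E) (e : HilbertBasis ι' ℂ E)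
    {U A B : E →L[ℂ] E} (hA : IsHS A) (hB : IsHS B) {α β : ι' → ℂ}
    (hα : ∀ v, A (e v) = α v • e v) (hβ : ∀ v, B (e v) = β v • e v) :
    hsTrace b (U ∘L A) B = ∑' v, α v * β v * ⟪e v, U (e v)⟫_ℂ := by
  rw [hsTrace_congr b e (hA.clm_comp U) hB]
  refine tsum_congr fun v => ?_
  rw [ContinuousLinearMap.comp_apply, hβ, map_smul, hα, smul_smul, map_smul, inner_smul_right]
  ring

omit [CompleteSpace E] in
/-- The summands of the spectral side are absolutely summable. -/
theorem summable_eigen {ι : Type*} {e : ι → E} (he : Orthonormal ℂ e) {U A B : E →L[ℂ] E}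
    (hA : IsHS A) (hB : IsHS B) {α β : ι → ℂ}
    (hα : ∀ v, A (e v) = α v • e v) (hβ : ∀ v, B (e v) = β v • e v) :
    Summable fun v => ‖α v * β v * ⟪e v, U (e v)⟫_ℂ‖ := by
  refine .of_nonneg_of_le (fun v => norm_nonneg _) (fun v => ?_)
    (((hA.summable he).add (hB.summable he)).mul_right ‖U‖)
  have h1 : ‖⟪e v, U (e v)⟫_ℂ‖ ≤ ‖U‖ := by
    refine (norm_inner_le_norm _ _).trans ?_
    rw [he.1 v, one_mul]
    simpa [he.1 v] using U.le_opNorm (e v)
  simp only [norm_mul, hα, hβ, norm_smul, he.1 v, mul_one]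
  refine mul_le_mul ?_ h1 (norm_nonneg _) (by positivity)
  nlinarith [sq_nonneg (‖α v‖ - ‖β v‖), norm_nonneg (α v), norm_nonneg (β v)]

end Fermat.Agent.LT.Operators
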