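import Fermat.Agent.L2Kernel.HilbertSchmidt
import Mathlib.MeasureTheory.Function.L2Space
import Mathlib.MeasureTheory.Integral.Prod
import Mathlib.MeasureTheory.Integral.DominatedConvergence
import Mathlib.MeasureTheory.Measure.SeparableMeasure

/-!
# Integral operators with square-integrable kernels

For `K ∈ L²(μ × ν)` the operator `g ↦ ∫ K(·, y) g(y)` from `L²(ν)` to `L²(μ)` is Hilbert–Schmidt,
its adjoint has the kernel `conj K(y, x)`, products compose kernels, and the trace of a product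
of two of them is the double integral `∫∫ K₁(x, y) K₂(y, x)`.
-/

set_option autoImplicit false

noncomputable section

namespace Fermat.Agent.LT.Operators

open MeasureTheory Fermat.Agent.L2Kernel
open scoped InnerProductSpace ComplexConjugate

variable {X Y Z : Type*} [MeasurableSpace X] [MeasurableSpace Y] [MeasurableSpace Z]
  {μ : Measure X} {ν : Measure Y} {ρ : Measure Z}

/-- The norm of `L²` as an integral. -/
theorem lp_norm_sq (f : Lp ℂ 2 μ) : ‖f‖ ^ 2 = ∫ x, ‖f x‖ ^ 2 ∂μ := by
  have h : ((‖f‖ ^ 2 : ℝ) : ℂ) = ((∫ x, ‖f x‖ ^ 2 ∂μ : ℝ) : ℂ) := by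
    rw [← integral_complex_ofReal, Complex.ofReal_pow]
    refine Eq.trans (inner_self_eq_norm_sq_to_K (𝕜 := ℂ) f).symm ?_
    rw [L2.inner_def]
    refine integral_congr_ae (Filter.Eventually.of_forall fun x => ?_)
    simp [inner_self_eq_norm_sq_to_K]
  exact_mod_cast h

theorem integrable_norm_sq_lp (f : Lp ℂ 2 μ) : Integrable (fun x => ‖f x‖ ^ 2) μ :=
  (memLp_two_iff_integrable_sq_norm (Lp.aestronglyMeasurable f)).mp (Lp.memLp f)

theorem memLp_conj_two {f : X → ℂ} (hf : MemLp f 2 μ) : MemLp (fun x => conj (f x)) 2 μ :=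
  hf.of_le (Complex.continuous_conj.comp_aestronglyMeasurable hf.1)
    (Filter.Eventually.of_forall fun x => by simp)

variable (μ ν) in
/-- A square-integrable kernel. -/
def IsKernel (K : X × Y → ℂ) : Prop := MemLp K 2 (μ.prod ν)

/-- The kernel of the adjoint. -/
def adjKernel (K : X × Y → ℂ) : Y × X → ℂ := fun p => conj (K (p.2, p.1))

open Classical in
variable (ν) in
/-- The conjugate row `y ↦ conj K(x, y)` as a vector of `L²(ν)`. -/
def row (K : X × Y → ℂ) (x : X) : Lp ℂ 2 ν :=
  if h : MemLp (fun y => conj (K (x, y))) 2 ν then h.toLp _ else 0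

variable {K : X × Y → ℂ}

theorem IsKernel.integrable_sq (hK : IsKernel μ ν K) :
    Integrable (fun z => ‖K z‖ ^ 2) (μ.prod ν) :=
  (memLp_two_iff_integrable_sq_norm hK.1).mp hK

section Rows

variable [SFinite μ] [SFinite ν]

/-- Almost every row is square-integrable. -/
theorem IsKernel.row_coe (hK : IsKernel μ ν K) :
    ∀ᵐ x ∂μ, (row ν K x : Y → ℂ) =ᵐ[ν] fun y => conj (K (x, y)) := by
  filter_upwards [hK.1.prodMk_left, hK.integrable_sq.prod_right_ae] with x h1 h2
  have h : MemLp (fun y => conj (K (x, y))) 2 ν :=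
    memLp_conj_two ((memLp_two_iff_integrable_sq_norm h1).mpr h2)
  simp only [row, h, dite_true]
  exact h.coeFn_toLp

/-- The inner product with a row is the integral against the kernel. -/
theorem IsKernel.inner_row_eq (hK : IsKernel μ ν K) (g : Lp ℂ 2 ν) :
    ∀ᵐ x ∂μ, ⟪row ν K x, g⟫_ℂ = ∫ y, K (x, y) * g y ∂ν := by
  filter_upwards [hK.row_coe] with x hx
  rw [L2.inner_def]
  refine integral_congr_ae ?_
  filter_upwards [hx] with y hy
  rw [hy, RCLike.inner_apply, Complex.conj_conj, mul_comm]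

theorem IsKernel.norm_row_sq (hK : IsKernel μ ν K) :
    ∀ᵐ x ∂μ, ‖row ν K x‖ ^ 2 = ∫ y, ‖K (x, y)‖ ^ 2 ∂ν := by
  filter_upwards [hK.row_coe] with x hx
  rw [lp_norm_sq]
  refine integral_congr_ae ?_
  filter_upwards [hx] with y hy
  rw [hy, Complex.norm_conj]

theorem IsKernel.integrable_norm_row_sq (hK : IsKernel μ ν K) :
    Integrable (fun x => ‖row ν K x‖ ^ 2) μ :=
  hK.integrable_sq.integral_prod_left.congr (hK.norm_row_sq.mono fun _ h => h.symm)

theorem IsKernel.aestronglyMeasurable_inner_row (hK : IsKernel μ ν K) (g : Lp ℂ 2 ν) :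
    AEStronglyMeasurable (fun x => ⟪row ν K x, g⟫_ℂ) μ := by
  have h : AEStronglyMeasurable (fun z : X × Y => K z * g z.2) (μ.prod ν) :=
    hK.1.mul (Lp.aestronglyMeasurable g).comp_snd
  exact h.integral_prod_right'.congr ((hK.inner_row_eq g).mono fun _ hx => hx.symm)

theorem IsKernel.memLp_inner_row (hK : IsKernel μ ν K) (g : Lp ℂ 2 ν) :
    MemLp (fun x => ⟪row ν K x, g⟫_ℂ) 2 μ := by
  refine (memLp_two_iff_integrable_sq_norm (hK.aestronglyMeasurable_inner_row g)).mpr ?_
  refine (hK.integrable_norm_row_sq.mul_const (‖g‖ ^ 2)).mono'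
    ((hK.aestronglyMeasurable_inner_row g).norm.pow 2) (Filter.Eventually.of_forall fun x => ?_)
  rw [Real.norm_of_nonneg (by positivity), ← mul_pow]
  gcongr
  exact norm_inner_le_norm _ _

/-- The integral operator with kernel `K`. -/
def kernelCLM (hK : IsKernel μ ν K) : Lp ℂ 2 ν →L[ℂ] Lp ℂ 2 μ :=
  LinearMap.mkContinuous
    { toFun := fun g => (hK.memLp_inner_row g).toLp _
      map_add' := fun g g' => by
        rw [← MemLp.toLp_add]
        exact MemLp.toLp_congr _ _ (Filter.Eventually.of_forall fun x => inner_add_right _ _ _)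
      map_smul' := fun c g => by
        rw [RingHom.id_apply, ← MemLp.toLp_const_smul]
        exact MemLp.toLp_congr _ _ (Filter.Eventually.of_forall fun x => inner_smul_right _ _ _) }
    (√(∫ x, ‖row ν K x‖ ^ 2 ∂μ)) fun g => by
      rw [← abs_of_nonneg (mul_nonneg (Real.sqrt_nonneg (∫ x, ‖row ν K x‖ ^ 2 ∂μ)) (norm_nonneg g)),
        ← abs_norm ((_ : Lp ℂ 2 ν →ₗ[ℂ] Lp ℂ 2 μ) g), ← sq_le_sq, mul_pow,
        Real.sq_sqrt (integral_nonneg fun x => sq_nonneg _), lp_norm_sq, ← integral_mul_const]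
      refine integral_mono_ae (integrable_norm_sq_lp _) (hK.integrable_norm_row_sq.mul_const _) ?_
      filter_upwards [MemLp.coeFn_toLp (hK.memLp_inner_row g)] with x hx
      simp only [LinearMap.coe_mk, AddHom.coe_mk, hx]
      rw [← mul_pow]
      gcongr
      exact norm_inner_le_norm _ _

theorem kernelCLM_coe_inner (hK : IsKernel μ ν K) (g : Lp ℂ 2 ν) :
    (kernelCLM hK g : X → ℂ) =ᵐ[μ] fun x => ⟪row ν K x, g⟫_ℂ :=
  MemLp.coeFn_toLp (hK.memLp_inner_row g)

/-- The operator is integration against the kernel. -/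
theorem kernelCLM_coe (hK : IsKernel μ ν K) (g : Lp ℂ 2 ν) :
    (kernelCLM hK g : X → ℂ) =ᵐ[μ] fun x => ∫ y, K (x, y) * g y ∂ν :=
  (kernelCLM_coe_inner hK g).trans (hK.inner_row_eq g)

/-- Operators only depend on the kernel almost everywhere. -/
theorem kernelCLM_congr {K' : X × Y → ℂ} (hK : IsKernel μ ν K) (hK' : IsKernel μ ν K')
    (h : K =ᵐ[μ.prod ν] K') : kernelCLM hK = kernelCLM hK' := by
  ext g : 1
  refine Lp.ext ?_
  filter_upwards [kernelCLM_coe hK g, kernelCLM_coe hK' g, Measure.ae_ae_of_ae_prod h]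
    with x h1 h2 h3
  rw [h1, h2]
  refine integral_congr_ae ?_
  filter_upwards [h3] with y hy
  rw [hy]

/-- Integral operators with square-integrable kernels are Hilbert–Schmidt. -/
theorem isHS_kernelCLM (hK : IsKernel μ ν K) : IsHS (kernelCLM hK) := by
  refine ⟨∫ x, ‖row ν K x‖ ^ 2 ∂μ, fun ι _ v hv => ?_⟩
  simp only [lp_norm_sq (kernelCLM hK _)]
  rw [← integral_finsetSum _ fun i _ => integrable_norm_sq_lp _]
  refine integral_mono_ae (integrable_finsetSum _ fun i _ => integrable_norm_sq_lp _)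
    hK.integrable_norm_row_sq ?_
  filter_upwards [ae_all_iff.mpr fun i => kernelCLM_coe_inner hK (v i)] with x hx
  simp only [hx, norm_inner_symm (row ν K x)]
  exact hv.sum_inner_products_le _

/-- Integral operators with square-integrable kernels are compact. -/
theorem isCompactOperator_kernelCLM (hK : IsKernel μ ν K) : IsCompactOperator (kernelCLM hK) :=
  (isHS_kernelCLM hK).isCompactOperator

/-- The adjoint kernel of a square integrable kernel is square integrable. -/
theorem IsKernel.adj (hK : IsKernel μ ν K) : IsKernel ν μ (adjKernel K) :=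
  memLp_conj_two (hK.comp_measurePreserving Measure.measurePreserving_swap)

/-- The sesquilinear form of an integral operator. -/
theorem IsKernel.inner_kernelCLM (hK : IsKernel μ ν K) (f : Lp ℂ 2 μ) (g : Lp ℂ 2 ν) :
    ⟪f, kernelCLM hK g⟫_ℂ = ∫ z, conj (f z.1) * K z * g z.2 ∂μ.prod ν := by
  rw [L2.inner_def]
  have hfg : MemLp (fun z : X × Y => conj (f z.1) * g z.2) 2 (μ.prod ν) := by
    refine (memLp_two_iff_integrable_sq_norm ?_).mpr ?_
    · exact (Complex.continuous_conj.comp_aestronglyMeasurable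
        (Lp.aestronglyMeasurable f)).comp_fst.mul (Lp.aestronglyMeasurable g).comp_snd
    · simpa [mul_pow] using (integrable_norm_sq_lp f).mul_prod (integrable_norm_sq_lp g)
  have hint : Integrable (fun z : X × Y => conj (f z.1) * K z * g z.2) (μ.prod ν) :=
    (hfg.integrable_mul hK).congr (Filter.Eventually.of_forall fun z => by
      simp only [Pi.mul_apply]; ring)
  rw [integral_prod _ hint]
  refine integral_congr_ae ?_
  filter_upwards [kernelCLM_coe hK g] with x hx
  rw [RCLike.inner_apply, hx, mul_comm, ← integral_const_mul]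
  simp only [mul_assoc]

/-- The adjoint has the kernel `adjKernel K`. -/
theorem adjoint_kernelCLM (hK : IsKernel μ ν K) :
    ContinuousLinearMap.adjoint (kernelCLM hK) = kernelCLM hK.adj := by
  symm
  rw [ContinuousLinearMap.eq_adjoint_iff]
  intro f g
  rw [← inner_conj_symm, hK.adj.inner_kernelCLM g f, hK.inner_kernelCLM f g, ← integral_conj,
    ← integral_prod_swap]
  refine integral_congr_ae (Filter.Eventually.of_forall fun z => ?_)
  simp [adjKernel]
  ring

end Rows

/-- The kernel of a product. -/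
def compKernel (ν : Measure Y) (K₁ : X × Y → ℂ) (K₂ : Y × Z → ℂ) : X × Z → ℂ :=
  fun p => ∫ y, K₁ (p.1, y) * K₂ (y, p.2) ∂ν

section Comp

variable [SFinite μ] [SFinite ν] [SFinite ρ] {K₁ : X × Y → ℂ} {K₂ : Y × Z → ℂ}

/-- The composed kernel is square-integrable. -/
theorem IsKernel.comp (h₁ : IsKernel μ ν K₁) (h₂ : IsKernel ν ρ K₂) :
    IsKernel μ ρ (compKernel ν K₁ K₂) := by
  have hm : AEStronglyMeasurable (compKernel ν K₁ K₂) (μ.prod ρ) := by
    have ha : AEStronglyMeasurable (fun q : (X × Z) × Y => K₁ (q.1.1, q.2) * K₂ (q.2, q.1.2))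
        ((μ.prod ρ).prod ν) :=
      (h₁.1.comp_quasiMeasurePreserving
        (QuasiMeasurePreserving.prodMap Measure.quasiMeasurePreserving_fst
            (Measure.QuasiMeasurePreserving.id ν))).mul
      (h₂.1.comp_quasiMeasurePreserving
        (Measure.measurePreserving_swap.quasiMeasurePreserving.comp
          (QuasiMeasurePreserving.prodMap Measure.quasiMeasurePreserving_snd
              (Measure.QuasiMeasurePreserving.id ν))))
    exact ha.integral_prod_right'
  refine (memLp_two_iff_integrable_sq_norm hm).mpr ?_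
  refine (h₁.integrable_norm_row_sq.mul_prod h₂.adj.integrable_norm_row_sq).mono' (hm.norm.pow 2) ?_
  filter_upwards [Measure.quasiMeasurePreserving_fst.ae h₁.row_coe,
    Measure.quasiMeasurePreserving_snd.ae h₂.adj.row_coe] with p h1 h2
  have h : compKernel ν K₁ K₂ p = ⟪row ν K₁ p.1, row ν (adjKernel K₂) p.2⟫_ℂ := by
    rw [L2.inner_def]
    refine integral_congr_ae ?_
    filter_upwards [h1, h2] with y hy1 hy2
    rw [hy1, hy2, RCLike.inner_apply, adjKernel, Complex.conj_conj, Complex.conj_conj, mul_comm]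
  rw [h, Real.norm_of_nonneg (sq_nonneg _), ← mul_pow]
  gcongr
  exact norm_inner_le_norm _ _

end Comp

section Trace

/-- Orthonormal families in a separable space are countable. -/
theorem countable_of_orthonormal {E ι : Type*} [NormedAddCommGroup E] [InnerProductSpace ℂ E]
    [TopologicalSpace.SeparableSpace E] {v : ι → E} (hv : Orthonormal ℂ v) : Countable ι := by
  refine Pairwise.countable_of_isOpen_disjoint (s := fun i => Metric.ball (v i) (1 / 2)) ?_
    (fun i => Metric.isOpen_ball) fun i => ⟨v i, Metric.mem_ball_self (by norm_num)⟩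
  intro i j hij
  refine Metric.ball_disjoint_ball ?_
  rw [dist_eq_norm]
  have h : ‖v i - v j‖ ^ 2 = 2 := by
    rw [@norm_sub_sq ℂ, hv.2 hij, hv.1 i, hv.1 j]
    norm_num
  nlinarith [norm_nonneg (v i - v j)]

variable [SFinite μ] [SFinite ν] [IsSeparable ν] {K₁ K₂ : X × Y → ℂ}

/-- The Hilbert–Schmidt inner product of two integral operators. -/
theorem hsInner_kernelCLM (h₁ : IsKernel μ ν K₁) (h₂ : IsKernel μ ν K₂) {ι : Type*}
    (b : HilbertBasis ι ℂ (Lp ℂ 2 ν)) :
    hsInner b (kernelCLM h₁) (kernelCLM h₂) = ∫ z, conj (K₁ z) * K₂ z ∂μ.prod ν := by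
  have : Fact ((2 : ENNReal) ≠ ⊤) := ⟨ENNReal.ofNat_ne_top⟩
  have : Countable ι := countable_of_orthonormal b.orthonormal
  have hint : Integrable (fun z => conj (K₁ z) * K₂ z) (μ.prod ν) :=
    (memLp_conj_two h₁).integrable_mul h₂
  set F : ι → X → ℂ := fun i x => ⟪(kernelCLM h₁ (b i) : X → ℂ) x, kernelCLM h₂ (b i) x⟫_ℂ
  have hF : ∀ i, Integrable (F i) μ := fun i => L2.integrable_inner _ _
  have hb : ∀ i, ∫ x, ‖F i x‖ ∂μ ≤ ‖kernelCLM h₁ (b i)‖ ^ 2 + ‖kernelCLM h₂ (b i)‖ ^ 2 := by
    intro i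
    rw [lp_norm_sq, lp_norm_sq,
      ← integral_add (integrable_norm_sq_lp _) (integrable_norm_sq_lp _)]
    refine integral_mono (hF i).norm ((integrable_norm_sq_lp _).add (integrable_norm_sq_lp _))
      fun x => (norm_inner_le_norm _ _).trans ?_
    nlinarith [sq_nonneg (‖kernelCLM h₁ (b i) x‖ - ‖kernelCLM h₂ (b i) x‖),
      norm_nonneg (kernelCLM h₁ (b i) x), norm_nonneg (kernelCLM h₂ (b i) x)]
  have hsum : Summable fun i => ∫ x, ‖F i x‖ ∂μ :=
    .of_nonneg_of_le (fun i => integral_nonneg fun x => norm_nonneg _) hb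
      (((isHS_kernelCLM h₁).summable b.orthonormal).add
        ((isHS_kernelCLM h₂).summable b.orthonormal))
  rw [hsInner, integral_prod _ hint]
  simp only [L2.inner_def]
  refine (integral_tsum_of_summable_integral_norm hF hsum).trans (integral_congr_ae ?_)
  filter_upwards [ae_all_iff.mpr fun i => kernelCLM_coe_inner h₁ (b i),
    ae_all_iff.mpr fun i => kernelCLM_coe_inner h₂ (b i), h₁.row_coe, h₂.row_coe]
    with x hx1 hx2 hr1 hr2
  simp only [F, hx1, hx2, RCLike.inner_apply, inner_conj_symm]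
  rw [b.tsum_inner_mul_inner, L2.inner_def]
  refine integral_congr_ae ?_
  filter_upwards [hr1, hr2] with y hy1 hy2
  rw [RCLike.inner_apply, hy1, hy2, Complex.conj_conj]

/-- The trace of a product of two integral operators. -/
theorem hsTrace_kernelCLM {J₁ : Y × X → ℂ} (h₁ : IsKernel ν μ J₁) (h₂ : IsKernel μ ν K₂)
    {ι : Type*} (b : HilbertBasis ι ℂ (Lp ℂ 2 ν)) :
    hsTrace b (kernelCLM h₁) (kernelCLM h₂) = ∫ z, J₁ (z.2, z.1) * K₂ z ∂μ.prod ν := by
  rw [hsTrace_eq_hsInner, adjoint_kernelCLM, hsInner_kernelCLM]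
  simp [adjKernel]

end Trace

section Twist

variable {X' : Type*} [MeasurableSpace X'] {μ' : Measure X'} {s : X → X'} {J : X' × Y → ℂ}

/-- Composition with a measure-preserving map as an operator. -/
def compCLM (hs : MeasurePreserving s μ μ') : Lp ℂ 2 μ' →L[ℂ] Lp ℂ 2 μ :=
  (Lp.compMeasurePreservingₗᵢ ℂ s hs).toContinuousLinearMap

/-- `compCLM` is pullback along the map, almost everywhere. -/
theorem compCLM_coe (hs : MeasurePreserving s μ μ') (g : Lp ℂ 2 μ') :
    (compCLM hs g : X → ℂ) =ᵐ[μ] fun x => g (s x) :=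
  Lp.coeFn_compMeasurePreserving g hs

variable [SFinite μ] [SFinite μ'] [SFinite ν]

omit [SFinite μ'] in
/-- Square integrable kernels pull back along measure preserving maps of the first variable. -/
theorem IsKernel.twist (hJ : IsKernel μ' ν J) (hs : MeasurePreserving s μ μ') :
    IsKernel μ ν (fun z => J (s z.1, z.2)) :=
  hJ.comp_measurePreserving (hs.prod (MeasurePreserving.id ν))

/-- Composition with a measure-preserving map moves into the kernel. -/
theorem compCLM_comp_kernelCLM (hJ : IsKernel μ' ν J) (hs : MeasurePreserving s μ μ') :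
    compCLM hs ∘L kernelCLM hJ = kernelCLM (hJ.twist hs) := by
  ext g : 1
  refine Lp.ext ?_
  filter_upwards [compCLM_coe hs (kernelCLM hJ g), kernelCLM_coe (hJ.twist hs) g,
    hs.quasiMeasurePreserving.ae (kernelCLM_coe hJ g)] with x h1 h2 h3
  rw [ContinuousLinearMap.comp_apply, h1, h2, h3]

variable [IsSeparable ν]

/-- The twisted trace `tr (U_s T₁ T₂) = ∫∫ K₁(s y, x) K₂(x, y)`. -/
theorem hsTrace_twist {s : Y → Y} {J₁ : Y × X → ℂ} {K₂ : X × Y → ℂ} (h₁ : IsKernel ν μ J₁)
    (h₂ : IsKernel μ ν K₂) (hs : MeasurePreserving s ν ν)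
    {ι : Type*} (b : HilbertBasis ι ℂ (Lp ℂ 2 ν)) :
    hsTrace b (compCLM hs ∘L kernelCLM h₁) (kernelCLM h₂) =
      ∫ z, J₁ (s z.2, z.1) * K₂ z ∂μ.prod ν := by
  rw [compCLM_comp_kernelCLM, hsTrace_kernelCLM (h₁.twist hs) h₂ b]

end Twist

end Fermat.Agent.LT.Operators
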