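import Mathlib.Algebra.Algebra.Subalgebra.Basic
import Mathlib.RingTheory.Adjoin.Basic
import Mathlib.Analysis.Normed.Group.InfiniteSum
import Mathlib.Analysis.Normed.Group.Indicator
import Mathlib.Analysis.Normed.Group.Tannery
import Mathlib.Analysis.SpecificLimits.Normed
import Mathlib.Analysis.Complex.Basic

/-!
# Separation of systems of eigenvalues

If an absolutely summable weight `m` on `ι` annihilates a monoid `A` of bounded functions on `ι`
closed under conjugation, then `m` sums to zero over every class of the relation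
"not separated by `A`".
-/

set_option autoImplicit false

noncomputable section

namespace Fermat.Agent.LT.Operators

open Filter Topology
open scoped ComplexConjugate

variable {ι : Type*} (A : Submonoid (ι → ℂ))

/-- The points not separated from `i₀` by `A`. -/
def sepClass (i₀ : ι) : Set ι := {i | ∀ f ∈ A, f i = f i₀}

variable {A}

/-- The algebra generated by `A` consists of bounded functions. -/
theorem bounded_of_mem_adjoin (hb : ∀ f ∈ A, ∃ M, ∀ i, ‖f i‖ ≤ M) {f : ι → ℂ}
    (hf : f ∈ Algebra.adjoin ℂ (A : Set (ι → ℂ))) : ∃ M, ∀ i, ‖f i‖ ≤ M := by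
  rw [← Subalgebra.mem_toSubmodule, Algebra.adjoin_eq_span, Submonoid.closure_eq] at hf
  induction hf using Submodule.span_induction with
  | mem u hu => exact hb u hu
  | zero => exact ⟨0, fun i => by simp⟩
  | add u v _ _ h1 h2 =>
    obtain ⟨M, hM⟩ := h1
    obtain ⟨N, hN⟩ := h2
    exact ⟨M + N, fun i => (norm_add_le _ _).trans (add_le_add (hM i) (hN i))⟩
  | smul c u _ h =>
    obtain ⟨M, hM⟩ := h
    exact ⟨‖c‖ * M, fun i => by
      rw [Pi.smul_apply, norm_smul]
      exact mul_le_mul_of_nonneg_left (hM i) (norm_nonneg c)⟩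

/-- The weight annihilates the algebra generated by `A`. -/
theorem tsum_mul_adjoin_eq_zero {m : ι → ℂ} (hm : Summable fun i => ‖m i‖)
    (hb : ∀ f ∈ A, ∃ M, ∀ i, ‖f i‖ ≤ M) (h0 : ∀ f ∈ A, ∑' i, m i * f i = 0) {f : ι → ℂ}
    (hf : f ∈ Algebra.adjoin ℂ (A : Set (ι → ℂ))) : ∑' i, m i * f i = 0 := by
  have hs : ∀ g ∈ Algebra.adjoin ℂ (A : Set (ι → ℂ)), Summable fun i => m i * g i := by
    intro g hg
    obtain ⟨M, hM⟩ := bounded_of_mem_adjoin hb hg
    refine .of_norm_bounded (hm.mul_right M) fun i => ?_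
    rw [norm_mul]
    exact mul_le_mul_of_nonneg_left (hM i) (norm_nonneg _)
  have hsp := hf
  rw [← Subalgebra.mem_toSubmodule, Algebra.adjoin_eq_span, Submonoid.closure_eq] at hsp
  induction hsp using Submodule.span_induction with
  | mem u hu => exact h0 u hu
  | zero => simp
  | add u v hu hv h1 h2 =>
    have hmem : ∀ {w}, w ∈ Submodule.span ℂ (A : Set (ι → ℂ)) →
        w ∈ Algebra.adjoin ℂ (A : Set (ι → ℂ)) := fun h => Algebra.span_le_adjoin ℂ _ h
    simp only [Pi.add_apply, mul_add]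
    rw [(hs u (hmem hu)).tsum_add (hs v (hmem hv)), h1 (hmem hu), h2 (hmem hv), add_zero]
  | smul c u hu h =>
    simp only [Pi.smul_apply, smul_eq_mul, mul_left_comm _ c, tsum_mul_left,
      h (Algebra.span_le_adjoin ℂ _ hu), mul_zero]

/-- Separation: the sum over each class vanishes. -/
theorem tsum_sepClass_eq_zero {m : ι → ℂ} (hm : Summable fun i => ‖m i‖)
    (hb : ∀ f ∈ A, ∃ M, ∀ i, ‖f i‖ ≤ M) (hstar : ∀ f ∈ A, (fun i => conj (f i)) ∈ A)
    (h0 : ∀ f ∈ A, ∑' i, m i * f i = 0) (i₀ : ι) :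
    ∑' i, (sepClass A i₀).indicator m i = 0 := by
  classical
  set R := Algebra.adjoin ℂ (A : Set (ι → ℂ))
  have hA : ∀ f ∈ A, f ∈ R := fun f hf => Algebra.subset_adjoin hf
  set F := sepClass A i₀
  have hpeak : ∀ j ∉ F, ∃ g : ι → ℝ, (fun i => (g i : ℂ)) ∈ R ∧ (∀ i, 0 ≤ g i ∧ g i ≤ 1) ∧
      (∀ i ∈ F, g i = 1) ∧ g j < 1 := by
    intro j hj
    simp only [F, sepClass, Set.mem_ofPred_eq, not_forall] at hj
    obtain ⟨f, hf, hne⟩ := hj
    obtain ⟨M, hM⟩ := hb f hf
    have hpos : 0 < 2 * M := by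
      have h := (norm_sub_le (f j) (f i₀)).trans (add_le_add (hM j) (hM i₀))
      linarith [norm_pos_iff.mpr (sub_ne_zero.mpr hne)]
    refine ⟨fun i => 1 - (‖f i - f i₀‖ / (2 * M)) ^ 2, ?_, fun i => ⟨?_, ?_⟩, fun i hi => ?_, ?_⟩
    · have h1 : f - algebraMap ℂ (ι → ℂ) (f i₀) ∈ R := R.sub_mem (hA f hf) (R.algebraMap_mem _)
      have h2 : (fun i => conj (f i)) - algebraMap ℂ (ι → ℂ) (conj (f i₀)) ∈ R :=
        R.sub_mem (hA _ (hstar f hf)) (R.algebraMap_mem _)
      convert R.sub_mem R.one_mem (R.smul_mem (R.mul_mem h1 h2) ((((2 * M) ^ 2 : ℝ)) : ℂ)⁻¹) using 1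
      funext i
      simp only [Pi.sub_apply, Pi.one_apply, Pi.smul_apply, Pi.mul_apply, Pi.algebraMap_apply,
        Algebra.algebraMap_self, RingHom.id_apply, smul_eq_mul, ← map_sub, Complex.mul_conj']
      push_cast
      rw [div_pow, div_eq_inv_mul]
    · have h : ‖f i - f i₀‖ / (2 * M) ≤ 1 := by
        rw [div_le_one hpos]
        linarith [norm_sub_le (f i) (f i₀), hM i, hM i₀]
      nlinarith [div_nonneg (norm_nonneg (f i - f i₀)) hpos.le]
    · nlinarith [sq_nonneg (‖f i - f i₀‖ / (2 * M))]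
    · simp [hi f hf]
    · have h : 0 < ‖f j - f i₀‖ / (2 * M) := div_pos (norm_pos_iff.mpr (sub_ne_zero.mpr hne)) hpos
      nlinarith
  choose! g hgR hg01 hgF hgj using hpeak
  have hlim : Tendsto (fun s : Finset ι => ∑' i : { i // i ∉ s }, ‖m i‖) atTop (𝓝 0) :=
    tendsto_tsum_compl_atTop_zero fun i => ‖m i‖
  refine norm_le_zero_iff.mp (ge_of_tendsto hlim (Eventually.of_forall fun s => ?_))
  set t := s.filter (· ∉ F)
  set h : ι → ℝ := fun i => ∏ j ∈ t, g j i
  have ht : ∀ j ∈ t, j ∉ F := fun j hj => (Finset.mem_filter.mp hj).2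
  have hR : (fun i => (h i : ℂ)) ∈ R := by
    have := Subalgebra.prod_mem R (t := t) fun j hj => hgR j (ht j hj)
    convert this using 1
    funext i
    simp [h, Finset.prod_apply]
  have h01 : ∀ i, 0 ≤ h i ∧ h i ≤ 1 := fun i =>
    ⟨Finset.prod_nonneg fun j hj => (hg01 j (ht j hj) i).1,
      Finset.prod_le_one (fun j hj => (hg01 j (ht j hj) i).1) fun j hj => (hg01 j (ht j hj) i).2⟩
  have hF1 : ∀ i ∈ F, h i = 1 := fun i hi =>
    Finset.prod_eq_one fun j hj => hgF j (ht j hj) i hi
  have hs1 : ∀ i ∈ s, i ∉ F → h i < 1 := by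
    intro i hi hiF
    have hit : i ∈ t := Finset.mem_filter.mpr ⟨hi, hiF⟩
    rw [show h i = g i i * ∏ j ∈ t.erase i, g j i from (Finset.mul_prod_erase t _ hit).symm]
    exact mul_lt_one_of_nonneg_of_lt_one_left (hg01 i hiF i).1 (hgj i hiF)
      (Finset.prod_le_one (fun j hj => (hg01 j (ht j (Finset.mem_of_mem_erase hj)) i).1)
        fun j hj => (hg01 j (ht j (Finset.mem_of_mem_erase hj)) i).2)
  set H := {i | h i = 1}
  have hH : ∑' i, H.indicator m i = 0 := by
    have hT : Tendsto (fun n : ℕ => ∑' i, m i * (h i : ℂ) ^ n) atTop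
        (𝓝 (∑' i, H.indicator m i)) := by
      refine tendsto_tsum_of_dominated_convergence hm (fun i => ?_)
        (Eventually.of_forall fun n i => ?_)
      · by_cases hi : h i = 1
        · simp only [hi, Complex.ofReal_one, one_pow, mul_one,
            Set.indicator_of_mem (show i ∈ H from hi)]
          exact tendsto_const_nhds
        · rw [Set.indicator_of_notMem (show i ∉ H from hi)]
          have hlt : ‖(h i : ℂ)‖ < 1 := by
            rw [Complex.norm_real, Real.norm_of_nonneg (h01 i).1]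
            exact lt_of_le_of_ne (h01 i).2 hi
          simpa using (tendsto_pow_atTop_nhds_zero_of_norm_lt_one hlt).const_mul (m i)
      · rw [norm_mul, norm_pow, Complex.norm_real, Real.norm_of_nonneg (h01 i).1]
        exact mul_le_of_le_one_right (norm_nonneg _) (pow_le_one₀ (h01 i).1 (h01 i).2)
    refine tendsto_nhds_unique hT (tendsto_const_nhds.congr fun n => ?_)
    exact (tsum_mul_adjoin_eq_zero hm hb h0 (R.pow_mem hR n)).symm
  have hms : Summable m := hm.of_norm
  calc ‖∑' i, F.indicator m i‖ = ‖∑' i, (F.indicator m i - H.indicator m i)‖ := by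
        rw [(hms.indicator F).tsum_sub (hms.indicator H), hH, sub_zero]
    _ ≤ ∑' i, ({i | i ∉ s} : Set ι).indicator (fun i => ‖m i‖) i := by
        refine tsum_of_norm_bounded (hm.indicator _).hasSum fun i => ?_
        by_cases hiF : i ∈ F
        · rw [Set.indicator_of_mem hiF, Set.indicator_of_mem (show i ∈ H from hF1 i hiF), sub_self,
            norm_zero]
          exact Set.indicator_nonneg (fun _ _ => norm_nonneg _) _
        · rw [Set.indicator_of_notMem hiF, zero_sub, norm_neg]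
          by_cases his : i ∈ s
          · rw [Set.indicator_of_notMem (show i ∉ H from fun hi => (hs1 i his hiF).ne hi),
              norm_zero]
            exact Set.indicator_nonneg (fun _ _ => norm_nonneg _) _
          · rw [Set.indicator_of_mem (show i ∈ {i | i ∉ s} from his)]
            exact norm_indicator_le_norm_self _ _
    _ = ∑' i : { i // i ∉ s }, ‖m i‖ := (tsum_subtype _ (fun i => ‖m i‖)).symm

/-- Two absolutely convergent expansions in the same test functions agree on each system. -/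
theorem tsum_system_eq {α β Λ : Type*} (A : Submonoid (Λ → ℂ))
    (hb : ∀ f ∈ A, ∃ M, ∀ x, ‖f x‖ ≤ M) (hstar : ∀ f ∈ A, (fun x => conj (f x)) ∈ A)
    {a : α → ℂ} {b : β → ℂ} {x : α → Λ} {y : β → Λ} (ha : Summable fun i => ‖a i‖)
    (hb' : Summable fun j => ‖b j‖)
    (h0 : ∀ f ∈ A, ∑' i, a i * f (x i) = ∑' j, b j * f (y j)) (z : Λ) :
    ∑' i, {i | ∀ f ∈ A, f (x i) = f z}.indicator a i =
      ∑' j, {j | ∀ f ∈ A, f (y j) = f z}.indicator b j := by
  classical
  set p : α ⊕ β ⊕ Unit → Λ := Sum.elim x (Sum.elim y fun _ => z)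
  set m : α ⊕ β ⊕ Unit → ℂ := Sum.elim a (Sum.elim (fun j => -b j) fun _ => 0)
  set φ : (Λ → ℂ) →* (α ⊕ β ⊕ Unit → ℂ) :=
    { toFun := fun f => f ∘ p, map_one' := rfl, map_mul' := fun _ _ => rfl }
  have hsplit : ∀ u : α ⊕ β ⊕ Unit → ℂ, Summable (u ∘ Sum.inl) →
      Summable (u ∘ Sum.inr ∘ Sum.inl) →
      ∑' k, u k = ∑' i, u (.inl i) + (∑' j, u (.inr (.inl j)) + u (.inr (.inr ()))) := by
    intro u h1 h2
    have h3 : HasSum (fun k => u (.inr k)) (∑' j, u (.inr (.inl j)) + u (.inr (.inr ()))) :=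
      HasSum.sum (f := fun k => u (.inr k)) h2.hasSum (hasSum_unique _)
    exact (HasSum.sum h1.hasSum h3).tsum_eq
  have hm : Summable fun k => ‖m k‖ := by
    have h3 : HasSum (fun k : β ⊕ Unit => ‖m (.inr k)‖) (∑' j, ‖b j‖ + 0) := by
      refine HasSum.sum (f := fun k : β ⊕ Unit => ‖m (.inr k)‖) ?_ (by simp [m, Function.comp_def])
      simpa [Function.comp_def, m] using hb'.hasSum
    exact (HasSum.sum (f := fun k => ‖m k‖)
      (by simpa [Function.comp_def, m] using ha.hasSum) h3).summable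
  have hms : ∀ f ∈ A, Summable (fun i => a i * f (x i)) ∧ Summable (fun j => b j * f (y j)) := by
    intro f hf
    obtain ⟨M, hM⟩ := hb f hf
    refine ⟨.of_norm_bounded (ha.mul_right M) fun i => ?_,
      .of_norm_bounded (hb'.mul_right M) fun i => ?_⟩
    all_goals rw [norm_mul]; exact mul_le_mul_of_nonneg_left (hM _) (norm_nonneg _)
  have key := tsum_sepClass_eq_zero (A := A.map φ) hm ?_ ?_ ?_ (.inr (.inr ()))
  · have hset : sepClass (A.map φ) (.inr (.inr ())) = {k | ∀ f ∈ A, f (p k) = f z} := by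
      ext k
      simp [sepClass, φ, p]
    rw [hset] at key
    have hl : ∀ i, {k | ∀ f ∈ A, f (p k) = f z}.indicator m (.inl i) =
        {i | ∀ f ∈ A, f (x i) = f z}.indicator a i := fun i => by
      by_cases hc : i ∈ {i | ∀ f ∈ A, f (x i) = f z}
      · rw [Set.indicator_of_mem hc, Set.indicator_of_mem
          (show Sum.inl i ∈ {k | ∀ f ∈ A, f (p k) = f z} from hc)]
        rfl
      · rw [Set.indicator_of_notMem hc, Set.indicator_of_notMem
          (show Sum.inl i ∉ {k | ∀ f ∈ A, f (p k) = f z} from hc)]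
    have hr : ∀ j, {k | ∀ f ∈ A, f (p k) = f z}.indicator m (.inr (.inl j)) =
        -{j | ∀ f ∈ A, f (y j) = f z}.indicator b j := fun j => by
      by_cases hc : j ∈ {j | ∀ f ∈ A, f (y j) = f z}
      · rw [Set.indicator_of_mem hc, Set.indicator_of_mem
          (show Sum.inr (Sum.inl j) ∈ {k | ∀ f ∈ A, f (p k) = f z} from hc)]
        rfl
      · rw [Set.indicator_of_notMem hc, Set.indicator_of_notMem
          (show Sum.inr (Sum.inl j) ∉ {k | ∀ f ∈ A, f (p k) = f z} from hc), neg_zero]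
    have h1 : Summable fun i => {i | ∀ f ∈ A, f (x i) = f z}.indicator a i :=
      (Summable.of_norm ha).indicator _
    have h2 : Summable fun j => -{j | ∀ f ∈ A, f (y j) = f z}.indicator b j :=
      ((Summable.of_norm hb').indicator _).neg
    rw [hsplit ({k | ∀ f ∈ A, f (p k) = f z}.indicator m) (h1.congr fun i => (hl i).symm)
      (h2.congr fun j => (hr j).symm)] at key
    simp only [hl, hr, tsum_neg] at key
    rw [show {k | ∀ f ∈ A, f (p k) = f z}.indicator m (.inr (.inr ())) = 0 by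
      simp [Set.indicator_apply, m], add_zero] at key
    exact eq_of_sub_eq_zero (by rw [sub_eq_add_neg, key])
  · rintro _ ⟨f, hf, rfl⟩
    obtain ⟨M, hM⟩ := hb f hf
    exact ⟨M, fun k => hM (p k)⟩
  · rintro _ ⟨f, hf, rfl⟩
    exact ⟨_, hstar f hf, rfl⟩
  · rintro _ ⟨f, hf, rfl⟩
    obtain ⟨h1, h2⟩ := hms f hf
    rw [hsplit _ (by simpa [Function.comp_def, φ, p, m] using h1)
      (by simpa [Function.comp_def, φ, p, m] using h2.neg)]
    simp [φ, p, m, neg_mul, tsum_neg, h0 f hf]

end Fermat.Agent.LT.Operators
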